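import Fermat.Agent.DigitFrequency.Billingsley

/-!
# A Cantor tree of badly approximable numbers

In base `R` the cells of rank `n` are matched with the fractions `p / q` for which
`R ^ n ≤ 4 R q ^ 2` and `4 q ^ 2 < R ^ n`.  Near a cell there is at most one of them, and it
forbids at most three of the `R` children of the cell.
-/

set_option autoImplicit false

noncomputable section

open Finset Filter Topology MeasureTheory
open FA.DigitFrequency
open scoped ENNReal

namespace FA.JarnikBad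

/-- The fraction `p / q` forbids the child `d` of the cell number `K` of rank `n`. -/
def Forbids (R n K d : ℕ) (p : ℤ) (q : ℕ) : Prop :=
  R ^ n ≤ 4 * R * q ^ 2 ∧ 4 * q ^ 2 < R ^ n ∧
    ((R * K + d : ℕ) : ℝ) - 1 < (p : ℝ) / q * (R : ℝ) ^ (n + 1) ∧
      (p : ℝ) / q * (R : ℝ) ^ (n + 1) < ((R * K + d : ℕ) : ℝ) + 2

/-- Two fractions forbidding children of the same cell are equal. -/
theorem eq_of_forbids {R n K d d' : ℕ} (hR : 3 ≤ R) (hd : d < R) (hd' : d' < R) {p p' : ℤ}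
    {q q' : ℕ} (h : Forbids R n K d p q) (h' : Forbids R n K d' p' q') :
    (p : ℝ) / q = (p' : ℝ) / q' := by
  obtain ⟨h1, h2, h3, h4⟩ := h
  obtain ⟨h1', h2', h3', h4'⟩ := h'
  by_contra hne
  have hRn : 0 < R ^ n := pow_pos (by omega) n
  have hq : 0 < q := Nat.pos_of_ne_zero fun h0 => by simp [h0] at h1; omega
  have hq' : 0 < q' := Nat.pos_of_ne_zero fun h0 => by simp [h0] at h1'; omega
  have hqR : (0 : ℝ) < q := Nat.cast_pos.2 hq
  have hqR' : (0 : ℝ) < q' := Nat.cast_pos.2 hq'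
  have hqq : 4 * ((q : ℝ) * q') < (R : ℝ) ^ n := by
    have a1 : 4 * (q : ℝ) ^ 2 < (R : ℝ) ^ n := by exact_mod_cast h2
    have a2 : 4 * (q' : ℝ) ^ 2 < (R : ℝ) ^ n := by exact_mod_cast h2'
    nlinarith [sq_nonneg ((q : ℝ) - q')]
  rw [div_eq_div_iff hqR.ne' hqR'.ne'] at hne
  have hz : (1 : ℝ) ≤ |(p : ℝ) * q' - q * p'| := by
    have : (p * q' - q * p' : ℤ) ≠ 0 := fun h0 => hne (by
      have : ((p * q' - q * p' : ℤ) : ℝ) = 0 := by rw [h0, Int.cast_zero]
      push_cast at this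
      linarith)
    exact_mod_cast Int.one_le_abs this
  have e : |(p : ℝ) / q - p' / q'| * ((q : ℝ) * q') = |(p : ℝ) * q' - q * p'| := by
    rw [div_sub_div _ _ hqR.ne' hqR'.ne', abs_div, abs_of_pos (mul_pos hqR hqR'),
      div_mul_cancel₀ _ (mul_pos hqR hqR').ne']
  have hdR : (d : ℝ) + 1 ≤ R := by exact_mod_cast hd
  have hdR' : (d' : ℝ) + 1 ≤ R := by exact_mod_cast hd'
  have hd0 : (0 : ℝ) ≤ d := Nat.cast_nonneg d
  have hd0' : (0 : ℝ) ≤ d' := Nat.cast_nonneg d'
  push_cast at h3 h4 h3' h4'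
  have hclose : |(p : ℝ) / q - p' / q'| * (R : ℝ) ^ (n + 1) ≤ R + 2 := by
    rw [← abs_of_pos (show (0 : ℝ) < (R : ℝ) ^ (n + 1) from
      pow_pos (by exact_mod_cast (by omega : 0 < R)) _), ← abs_mul, sub_mul, abs_le]
    constructor <;> linarith
  rw [pow_succ] at hclose
  have hR3 : (3 : ℝ) ≤ R := by exact_mod_cast hR
  have habs := abs_nonneg ((p : ℝ) / q - p' / q')
  nlinarith [mul_le_mul_of_nonneg_left hqq.le (mul_nonneg habs (by linarith : (0 : ℝ) ≤ R))]

/-- The children of the cell number `K` of rank `n` that are kept. -/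
def allowed (R n K : ℕ) : Finset (Fin R) :=
  open Classical in Finset.univ.filter fun d => ¬∃ p q, Forbids R n K d p q

theorem card_allowed {R : ℕ} (hR : 3 ≤ R) (n K : ℕ) : R ≤ (allowed R n K).card + 3 := by
  classical
  set F : Finset (Fin R) := Finset.univ.filter fun d : Fin R => ∃ p q, Forbids R n K d p q
  have hF : F.card ≤ 3 := by
    rcases F.eq_empty_or_nonempty with h | ⟨d₀, hd₀⟩
    · simp [h]
    obtain ⟨p₀, q₀, h₀⟩ := (mem_filter.1 hd₀).2
    set z : ℤ := ⌊(p₀ : ℝ) / q₀ * (R : ℝ) ^ (n + 1)⌋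
    refine (card_le_card_of_injOn (fun d : Fin R => ((R * K + d : ℕ) : ℤ))
      (t := Finset.Icc (z - 1) (z + 1)) (fun d hd => ?_) fun d _ d' _ h => ?_).trans
      (by rw [Int.card_Icc]; omega)
    · obtain ⟨p, q, h⟩ := (mem_filter.1 hd).2
      have he := eq_of_forbids hR d.isLt d₀.isLt h h₀
      obtain ⟨-, -, h3, h4⟩ := h
      rw [he] at h3 h4
      have a1 := Int.floor_le ((p₀ : ℝ) / q₀ * (R : ℝ) ^ (n + 1))
      have a2 := Int.lt_floor_add_one ((p₀ : ℝ) / q₀ * (R : ℝ) ^ (n + 1))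
      have b1 : (((R * K + d : ℕ) : ℤ) : ℝ) < ((z + 2 : ℤ) : ℝ) := by
        push_cast at h3 ⊢
        linarith
      have b2 : (z : ℝ) < (((R * K + d : ℕ) : ℤ) : ℝ) + 2 := by
        push_cast at h4 ⊢
        linarith
      have b2' : z < ((R * K + d : ℕ) : ℤ) + 2 := by exact_mod_cast b2
      rw [Int.cast_lt] at b1
      simp only [coe_Icc, Set.mem_Icc]
      omega
    · simp only [Nat.cast_inj, Nat.add_left_cancel_iff] at h
      exact Fin.ext h
  have h := Finset.card_filter_add_card_filter_not (s := (Finset.univ : Finset (Fin R)))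
    (fun d : Fin R => ∃ p q, Forbids R n K d p q)
  rw [card_univ, Fintype.card_fin] at h
  change F.card + (allowed R n K).card = R at h
  omega

variable {R m : ℕ}

/-- The choice of `m` kept children of each cell. -/
def childDigit (hR : 3 ≤ R) (hm : m + 3 ≤ R) (n K : ℕ) (i : Fin m) : Fin R :=
  (allowed R n K).orderEmbOfFin rfl
    (Fin.castLE (by have := card_allowed hR n K; omega) i)

theorem childDigit_injective (hR : 3 ≤ R) (hm : m + 3 ≤ R) (n K : ℕ) :
    Function.Injective (childDigit hR hm n K) :=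
  fun _ _ h => Fin.castLE_injective _
    (((allowed R n K).orderEmbOfFin rfl).injective h)

theorem childDigit_mem (hR : 3 ≤ R) (hm : m + 3 ≤ R) (n K : ℕ) (i : Fin m) :
    ¬∃ p q, Forbids R n K (childDigit hR hm n K i : ℕ) p q := by
  classical
  have h : childDigit hR hm n K i ∈ allowed R n K := orderEmbOfFin_mem _ _ _
  exact (mem_filter.1 h).2

/-- The cell of rank `n` reached by a path in the tree. -/
def cellIndex (hR : 3 ≤ R) (hm : m + 3 ≤ R) (ω : ℕ → Fin m) : ℕ → ℕ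
  | 0 => 0
  | n + 1 => R * cellIndex hR hm ω n + childDigit hR hm n (cellIndex hR hm ω n) (ω n)

/-- The digits in base `R` of a path in the tree. -/
def treeDigits (hR : 3 ≤ R) (hm : m + 3 ≤ R) (ω : ℕ → Fin m) (n : ℕ) : Fin R :=
  childDigit hR hm n (cellIndex hR hm ω n) (ω n)

theorem prefixValue_treeDigits (hR : 3 ≤ R) (hm : m + 3 ≤ R) (ω : ℕ → Fin m) :
    ∀ n, prefixValue (treeDigits hR hm ω) n = cellIndex hR hm ω n
  | 0 => rfl
  | n + 1 => by
    rw [prefixValue, prefixValue_treeDigits hR hm ω n]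
    rfl

theorem eq_of_treeDigits_eq (hR : 3 ≤ R) (hm : m + 3 ≤ R) {ω η : ℕ → Fin m} :
    ∀ {n}, (∀ i < n, treeDigits hR hm η i = treeDigits hR hm ω i) → ∀ i < n, η i = ω i
  | 0, _, i, hi => absurd hi (Nat.not_lt_zero i)
  | n + 1, h, i, hi => by
    have ih := eq_of_treeDigits_eq hR hm (n := n) fun j hj => h j (hj.trans n.lt_succ_self)
    rcases Nat.lt_succ_iff_lt_or_eq.1 hi with hi | rfl
    · exact ih i hi
    · have hc : ∀ k, k ≤ i → cellIndex hR hm η k = cellIndex hR hm ω k := by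
        intro k
        induction k with
        | zero => intro _; rfl
        | succ k ihk =>
          intro hk
          rw [cellIndex, cellIndex, ihk (by omega), ih k hk]
      have e := h i i.lt_succ_self
      rw [treeDigits, treeDigits, hc i le_rfl] at e
      exact childDigit_injective hR hm _ _ e

/-- A point of the tree keeps distance at least `1 / (4 R ^ 2 q ^ 2)` from `p / q`. -/
theorem le_abs_sub (hR : 3 ≤ R) (hm : m + 3 ≤ R) (ω : ℕ → Fin m) (p : ℤ) {q : ℕ} (hq : 0 < q) :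
    1 / (4 * (R : ℝ) ^ 2) / (q : ℝ) ^ 2 ≤ |Real.ofDigits (treeDigits hR hm ω) - p / q| := by
  have hex : ∃ n, 4 * q ^ 2 < R ^ n := ⟨4 * q ^ 2, Nat.lt_pow_self (by omega)⟩
  obtain ⟨l, hl⟩ : ∃ l, Nat.find hex = l + 1 := Nat.exists_eq_succ_of_ne_zero fun h0 => by
    have := Nat.find_spec hex
    rw [h0, pow_zero] at this
    nlinarith
  have hlt : 4 * q ^ 2 < R ^ (l + 1) := hl ▸ Nat.find_spec hex
  have hle : R ^ l ≤ 4 * q ^ 2 := not_lt.1 (Nat.find_min hex (by omega))
  have hband : R ^ (l + 1) ≤ 4 * R * q ^ 2 := by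
    rw [pow_succ, mul_comm 4 R, mul_assoc, mul_comm (R ^ l)]
    exact Nat.mul_le_mul_left R hle
  have hRR : (0 : ℝ) < R := by exact_mod_cast (by omega : 0 < R)
  have hqR : (0 : ℝ) < q := Nat.cast_pos.2 hq
  by_contra! hlt'
  refine childDigit_mem hR hm (l + 1) (cellIndex hR hm ω (l + 1)) (ω (l + 1))
    ⟨p, q, hband, hlt, ?_⟩
  obtain ⟨h1, h2⟩ := prefixValue_le_ofDigits (treeDigits hR hm ω) (l + 2)
  rw [prefixValue_treeDigits, cellLength, cellIndex] at h1 h2
  have hP : (0 : ℝ) < (R : ℝ) ^ (l + 2) := pow_pos hRR _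
  rw [← div_eq_mul_inv, div_le_iff₀ hP] at h1
  rw [← div_eq_mul_inv, le_div_iff₀ hP] at h2
  have hsmall : 1 / (4 * (R : ℝ) ^ 2) / (q : ℝ) ^ 2 * (R : ℝ) ^ (l + 2) ≤ 1 := by
    have : (R : ℝ) ^ (l + 1) ≤ 4 * R * (q : ℝ) ^ 2 := by exact_mod_cast hband
    rw [div_div, div_mul_eq_mul_div, div_le_one (by positivity), one_mul, pow_succ]
    calc (R : ℝ) ^ (l + 1) * R ≤ 4 * R * (q : ℝ) ^ 2 * R :=
          mul_le_mul_of_nonneg_right this hRR.le
      _ = _ := by ring
  have habs := mul_lt_mul_of_pos_right hlt' hP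
  rw [← abs_of_pos hP, ← abs_mul, abs_of_pos hP, sub_mul] at habs
  obtain ⟨a1, a2⟩ := abs_lt.1 (habs.trans_le hsmall)
  constructor <;> linarith

theorem sequenceLaw_uniform_cylinder (hR : 3 ≤ R) (hm : m + 3 ≤ R) (hm0 : 0 < m)
    (ω : ℕ → Fin m) (n : ℕ) :
    sequenceLaw (fun _ : Fin m => 1 / (m : ℝ))
      {η | ∀ i < n, treeDigits hR hm η i = treeDigits hR hm ω i} ≤
      ENNReal.ofReal ((1 / (m : ℝ)) ^ n) := by
  refine (measure_mono (fun η h => eq_of_treeDigits_eq hR hm h :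
    _ ⊆ {η : ℕ → Fin m | ∀ i < n, η i = ω i})).trans ?_
  refine ((sequenceLaw_cylinder (fun _ => by positivity) ?_ ω n).trans ?_).le
  · rw [sum_const, card_univ, Fintype.card_fin, nsmul_eq_mul,
      mul_one_div_cancel (Nat.cast_ne_zero.2 hm0.ne')]
  · rw [wordWeight, prod_const, card_range]

end FA.JarnikBad
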